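import Fermat.Prelude.Def_ModularForm_HeckeOperator
import Mathlib.NumberTheory.ModularForms.CongruenceSubgroups
import Mathlib.NumberTheory.Modular
import Mathlib.NumberTheory.ModularForms.ArithmeticSubgroups
import Mathlib.Data.Fintype.Option
import Mathlib.Algebra.Field.ZMod

/-!
# The coset decomposition behind the Hecke operator `T_p`, `p ∤ N`
-/

set_option autoImplicit false

noncomputable section

open Matrix.SpecialLinearGroup UpperHalfPlane CongruenceSubgroup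
open scoped MatrixGroups ModularForm

namespace FLTA.Petersson

theorem gamma0_mem_iff_dvd {N : ℕ} {A : SL(2, ℤ)} : A ∈ Gamma0 N ↔ (N : ℤ) ∣ A 1 0 := by
  rw [Gamma0_mem, ZMod.intCast_zmod_eq_zero_iff_dvd]

/-- Auxiliary data: `p * d - b * N = 1`. -/
structure Bezout (N p : ℕ) where
  /-- coefficient of `p` -/
  d : ℤ
  /-- minus the coefficient of `N` -/
  b : ℤ
  eq_one : (p : ℤ) * d - b * N = 1

theorem exists_bezout {N p : ℕ} (hp : p.Prime) (hpN : ¬ p ∣ N) : Nonempty (Bezout N p) := by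
  have h : IsCoprime (p : ℤ) (N : ℤ) :=
    Nat.isCoprime_iff_coprime.mpr (hp.coprime_iff_not_dvd.mpr hpN)
  obtain ⟨u, v, huv⟩ := h
  exact ⟨⟨u, -v, by linear_combination huv⟩⟩

namespace Bezout

variable {N p : ℕ} (B : Bezout N p)

/-- The element `(1 b; N pd)` of `Γ₀(N)`. -/
def rho : SL(2, ℤ) := ⟨!![1, B.b; (N : ℤ), (p : ℤ) * B.d], by
  rw [Matrix.det_fin_two_of]; linear_combination B.eq_one⟩

/-- The representatives `ρ T ^ j` together with `1`. -/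
def rep : Option (Fin p) → SL(2, ℤ)
  | none => 1
  | some j => B.rho * ⟨!![1, ((j : ℕ) : ℤ); 0, 1], by simp [Matrix.det_fin_two_of]⟩

theorem rho_mem : B.rho ∈ Gamma0 N := gamma0_mem_iff_dvd.mpr (by simp [rho])

theorem rep_mem (i : Option (Fin p)) : B.rep i ∈ Gamma0 N := by
  cases i with
  | none => exact one_mem _
  | some j => exact mul_mem B.rho_mem (gamma0_mem_iff_dvd.mpr (by simp))

theorem rep_mul_apply (j : Fin p) (δ : SL(2, ℤ)) :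
    (B.rep (some j) * δ) 1 0 =
      (N : ℤ) * δ 0 0 + ((N : ℤ) * (j : ℕ) + (p : ℤ) * B.d) * δ 1 0 := by
  simp [rep, rho, Matrix.mul_apply, Fin.sum_univ_two]

theorem rep_mul_mem_iff (hp : p.Prime) (hpN : ¬ p ∣ N) (i : Option (Fin p)) {δ : SL(2, ℤ)}
    (hδ : δ ∈ Gamma0 N) :
    B.rep i * δ ∈ Gamma0 (N * p) ↔
      match i with
      | none => (δ 1 0 : ZMod p) = 0
      | some j => (δ 0 0 : ZMod p) + (j : ℕ) * (δ 1 0 : ZMod p) = 0 := by
  have hcop : IsCoprime (N : ℤ) (p : ℤ) :=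
    (Nat.isCoprime_iff_coprime.mpr (hp.coprime_iff_not_dvd.mpr hpN)).symm
  obtain ⟨c, hc⟩ := gamma0_mem_iff_dvd.mp hδ
  rw [gamma0_mem_iff_dvd, Nat.cast_mul]
  cases i with
  | none =>
    simp only [rep, one_mul, ZMod.intCast_zmod_eq_zero_iff_dvd]
    exact ⟨fun h => dvd_trans ⟨N, mul_comm _ _⟩ h, fun h => hcop.mul_dvd ⟨c, hc⟩ h⟩
  | some j =>
    simp only [B.rep_mul_apply]
    have h1 : (N : ℤ) * δ 0 0 + ((N : ℤ) * (j : ℕ) + (p : ℤ) * B.d) * δ 1 0 =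
        (N : ℤ) * ((δ 0 0 + (j : ℕ) * δ 1 0) + (p : ℤ) * (B.d * c)) := by
      rw [hc]; ring
    rw [h1, mul_dvd_mul_iff_left (by exact_mod_cast fun h : N = 0 => hpN (h ▸ dvd_zero p)),
      dvd_add_left (dvd_mul_right _ _)]
    rw [← ZMod.intCast_zmod_eq_zero_iff_dvd]
    push_cast
    rfl

theorem existsUnique_rep_mul_mem (hp : p.Prime) (hpN : ¬ p ∣ N) {δ : SL(2, ℤ)}
    (hδ : δ ∈ Gamma0 N) : ∃! i, B.rep i * δ ∈ Gamma0 (N * p) := by
  have := Fact.mk hp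
  simp only [B.rep_mul_mem_iff hp hpN _ hδ]
  have hdet : (δ 0 0 : ZMod p) * δ 1 1 - δ 0 1 * δ 1 0 = 1 := by
    have h := congr_arg (fun x : ℤ => (x : ZMod p)) ((Matrix.det_fin_two δ.1).symm.trans δ.2)
    simpa using h
  rcases eq_or_ne (δ 1 0 : ZMod p) 0 with hc | hc
  · refine ⟨none, hc, ?_⟩
    rintro (_ | j) hj
    · rfl
    · simp only [hc, mul_zero, add_zero] at hj
      simp [hj, hc] at hdet
  · let j : Fin p := ⟨(-(δ 0 0 : ZMod p) / (δ 1 0 : ZMod p)).val, ZMod.val_lt _⟩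
    refine ⟨some j, ?_, ?_⟩
    · simp only [j, ZMod.natCast_zmod_val, div_mul_cancel₀ _ hc, add_neg_cancel]
    · rintro (_ | i) hi
      · exact absurd hi hc
      · simp only at hi
        have h : ((i : ℕ) : ZMod p) = -(δ 0 0 : ZMod p) / (δ 1 0 : ZMod p) :=
          (eq_div_iff hc).mpr (by linear_combination hi)
        congr 1
        ext
        simp only [j, ← h, ZMod.val_natCast_of_lt i.2]

theorem bijective_cosets (hp : p.Prime) (hpN : ¬ p ∣ N) :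
    Function.Bijective fun x : Option (Fin p) × (Gamma0 (N * p)).map (mapGL ℝ) =>
      (⟨mapGL ℝ (B.rep x.1)⁻¹ * x.2, mul_mem ⟨_, inv_mem (B.rep_mem x.1), rfl⟩
        (by
          obtain ⟨γ, hγ, h⟩ := x.2.2
          exact ⟨γ, gamma0_mem_iff_dvd.mpr
            (dvd_trans (by rw [Nat.cast_mul]; exact dvd_mul_right _ _) (gamma0_mem_iff_dvd.mp hγ)), h⟩)⟩ :
        (Gamma0 N).map (mapGL ℝ)) := by
  refine ⟨?_, ?_⟩
  · rintro ⟨i, _, γ, hγ, rfl⟩ ⟨i', _, γ', hγ', rfl⟩ h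
    have h1 : (B.rep i)⁻¹ * γ = (B.rep i')⁻¹ * γ' :=
      mapGL_injective (S := ℝ) (by simpa [Subtype.ext_iff] using h)
    have hmem : (B.rep i)⁻¹ * γ ∈ Gamma0 N := mul_mem (inv_mem (B.rep_mem i))
      (gamma0_mem_iff_dvd.mpr
        (dvd_trans (by rw [Nat.cast_mul]; exact dvd_mul_right _ _) (gamma0_mem_iff_dvd.mp hγ)))
    have h2 : i = i' := (B.existsUnique_rep_mul_mem hp hpN hmem).unique
      (by simpa using hγ) (by simpa [h1] using hγ')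
    subst h2
    simp [mul_left_cancel h1]
  · rintro ⟨_, δ, hδ, rfl⟩
    obtain ⟨i, hi, -⟩ := B.existsUnique_rep_mul_mem hp hpN hδ
    exact ⟨⟨i, ⟨_, _, hi, rfl⟩⟩, Subtype.ext (by simp)⟩

/-- The matrix `ρ · diag(p, 1)`, which normalises `Γ₀(Np)`. -/
def W : GL (Fin 2) ℝ := mapGL ℝ B.rho * ModularForm.heckeDiagMatrix p

theorem exists_diag_conj (hp : p ≠ 0) {γ : SL(2, ℤ)} (hγ : γ ∈ Gamma0 (N * p)) :
    ∃ γ' ∈ Gamma0 N, ModularForm.heckeDiagMatrix p * mapGL ℝ γ =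
      mapGL ℝ γ' * ModularForm.heckeDiagMatrix p := by
  obtain ⟨m, hm⟩ := gamma0_mem_iff_dvd.mp hγ
  have hdet := (Matrix.det_fin_two γ.1).symm.trans γ.2
  refine ⟨⟨!![γ 0 0, (p : ℤ) * γ 0 1; (N : ℤ) * m, γ 1 1], ?_⟩,
    gamma0_mem_iff_dvd.mpr (by simp), ?_⟩
  · rw [Matrix.det_fin_two_of]
    rw [hm, Nat.cast_mul] at hdet
    linear_combination hdet
  · apply Units.ext
    simp only [Units.val_mul, ModularForm.val_heckeDiagMatrix hp, mapGL_coe_matrix]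
    ext i j
    fin_cases i <;> fin_cases j <;>
      simp [Matrix.mul_apply, Fin.sum_univ_two, hm] <;> ring

theorem W_conj (hp : p ≠ 0) {γ : SL(2, ℤ)} (hγ : γ ∈ Gamma0 (N * p)) :
    ∃ γ' ∈ Gamma0 (N * p), B.W * mapGL ℝ γ = mapGL ℝ γ' * B.W := by
  obtain ⟨m, hm⟩ := gamma0_mem_iff_dvd.mp hγ
  obtain ⟨γ', hγ', h⟩ := exists_diag_conj hp hγ
  refine ⟨B.rho * γ' * B.rho⁻¹, ?_, ?_⟩
  · have hv := congr_arg (fun g : GL (Fin 2) ℝ => (g : Matrix (Fin 2) (Fin 2) ℝ)) h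
    simp only [Units.val_mul, ModularForm.val_heckeDiagMatrix hp, mapGL_coe_matrix] at hv
    have h00 := congr_fun (congr_fun hv 0) 0
    have h10 := congr_fun (congr_fun hv 1) 0
    have h01 := congr_fun (congr_fun hv 0) 1
    have h11 := congr_fun (congr_fun hv 1) 1
    simp [Matrix.mul_apply, Fin.sum_univ_two] at h00 h10 h01 h11
    have h01' : γ' 0 1 = (p : ℤ) * γ 0 1 := by exact_mod_cast h01.symm
    have h10' : (p : ℤ) * γ' 1 0 = γ 1 0 := by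
      rw [mul_comm]; exact_mod_cast h10.symm
    have h00' : γ' 0 0 = γ 0 0 := by
      have hp' : (p : ℝ) ≠ 0 := Nat.cast_ne_zero.mpr hp
      have := mul_left_cancel₀ hp' (h00.trans (mul_comm _ _))
      exact_mod_cast this.symm
    rw [gamma0_mem_iff_dvd, Nat.cast_mul]
    refine ⟨γ' 0 0 * B.d + m * ((p : ℤ) * B.d) * B.d - (γ 0 1 * N + B.d * γ' 1 1), ?_⟩
    have h10'' : γ' 1 0 = (N : ℤ) * m := by
      apply mul_left_cancel₀ (Int.natCast_ne_zero.mpr hp)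
      rw [h10', hm, Nat.cast_mul]; ring
    simp [rho, Matrix.mul_apply, Fin.sum_univ_two, Matrix.SpecialLinearGroup.coe_inv,
      Matrix.adjugate_fin_two_of, Matrix.vecMul, dotProduct, h01', h10'']
    ring
  · rw [W, mul_assoc, h, map_mul, map_mul, map_inv]
    group

theorem exists_W_mul_W (hp : p ≠ 0) :
    ∃ γ₀ ∈ Gamma0 (N * p), B.W * B.W =
      ModularForm.upperTriangularGL (p : ℝ) 0 p (by positivity) * mapGL ℝ γ₀ := by
  have hB := B.eq_one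
  refine ⟨⟨!![(p : ℤ) + B.b * N, B.b * (1 + B.d); (p : ℤ) * N * (1 + B.d),
    (N : ℤ) * B.b + p * B.d * B.d], ?_⟩, ?_, ?_⟩
  · rw [Matrix.det_fin_two_of]
    linear_combination ((p : ℤ) * B.d - B.b * N + 1) * hB
  · exact gamma0_mem_iff_dvd.mpr ⟨1 + B.d, by
      show (p : ℤ) * N * (1 + B.d) = _
      push_cast; ring⟩
  · apply Units.ext
    simp only [W, Units.val_mul, ModularForm.val_heckeDiagMatrix hp,
      ModularForm.val_upperTriangularGL, mapGL_coe_matrix]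
    ext i j
    fin_cases i <;> fin_cases j <;>
      simp [rho, Matrix.mul_apply, Fin.sum_univ_two] <;> ring

theorem W_conj_inv (hp : p ≠ 0) {γ : SL(2, ℤ)} (hγ : γ ∈ Gamma0 (N * p)) :
    ∃ γ' ∈ Gamma0 (N * p), B.W⁻¹ * mapGL ℝ γ = mapGL ℝ γ' * B.W⁻¹ := by
  obtain ⟨γ₁, hγ₁, h⟩ := B.W_conj hp hγ
  obtain ⟨γ₀, hγ₀, h0⟩ := B.exists_W_mul_W hp
  refine ⟨γ₀⁻¹ * γ₁ * γ₀, mul_mem (mul_mem (inv_mem hγ₀) hγ₁) hγ₀, ?_⟩
  set S := ModularForm.upperTriangularGL (p : ℝ) 0 p (by positivity)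
  have hS : ∀ g : GL (Fin 2) ℝ, S * g = g * S := by
    intro g
    apply Units.ext
    simp only [Units.val_mul, S, ModularForm.val_upperTriangularGL]
    ext i j
    fin_cases i <;> fin_cases j <;> simp [Matrix.mul_apply, Fin.sum_univ_two, mul_comm]
  have hW : B.W = S * mapGL ℝ γ₀ * B.W⁻¹ := by rw [← h0, mul_inv_cancel_right]
  have h2 : B.W * mapGL ℝ γ = mapGL ℝ γ₁ * B.W := h
  rw [hW] at h2
  have h3 := congr_arg (fun x => (mapGL ℝ γ₀)⁻¹ * (S⁻¹ * x)) h2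
  simp only [← mul_assoc] at h3
  rw [mul_assoc (mapGL ℝ γ₀)⁻¹ S⁻¹ (mapGL ℝ γ₁), mul_assoc] at h3
  rw [map_mul, map_mul, map_inv]
  have hSγ : S⁻¹ * mapGL ℝ γ₁ * S = mapGL ℝ γ₁ := by
    rw [mul_assoc, ← hS, inv_mul_cancel_left]
  calc B.W⁻¹ * mapGL ℝ γ
      = (mapGL ℝ γ₀)⁻¹ * S⁻¹ * (S * mapGL ℝ γ₀ * B.W⁻¹ * mapGL ℝ γ) := by group
    _ = (mapGL ℝ γ₀)⁻¹ * S⁻¹ * (mapGL ℝ γ₁ * (S * mapGL ℝ γ₀ * B.W⁻¹)) := by rw [h2]
    _ = (mapGL ℝ γ₀)⁻¹ * (S⁻¹ * mapGL ℝ γ₁ * S) * mapGL ℝ γ₀ * B.W⁻¹ := by group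
    _ = _ := by rw [hSγ]

theorem W_normalizes (hp : p ≠ 0) (γ : GL (Fin 2) ℝ) :
    B.W⁻¹ * γ * (B.W⁻¹)⁻¹ ∈ (Gamma0 (N * p)).map (mapGL ℝ) ↔
      γ ∈ (Gamma0 (N * p)).map (mapGL ℝ) := by
  constructor
  · rintro ⟨γ₁, hγ₁, h⟩
    obtain ⟨γ₂, hγ₂, h2⟩ := B.W_conj hp hγ₁
    refine ⟨γ₂, hγ₂, ?_⟩
    rw [← mul_inv_cancel_right (mapGL ℝ γ₂) B.W, ← h2, h]
    group
  · rintro ⟨γ₁, hγ₁, rfl⟩
    obtain ⟨γ₂, hγ₂, h2⟩ := B.W_conj_inv hp hγ₁
    exact ⟨γ₂, hγ₂, by rw [h2, mul_inv_cancel_right]⟩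

theorem diag_mul_rep (hp : p ≠ 0) (j : Fin p) :
    ∃ γ ∈ Gamma0 N, ModularForm.heckeDiagMatrix p * mapGL ℝ (B.rep (some j)) =
      mapGL ℝ γ * ModularForm.heckeMatrix p j := by
  refine ⟨⟨!![(p : ℤ), B.b; (N : ℤ), B.d], by
    rw [Matrix.det_fin_two_of]; exact B.eq_one⟩, gamma0_mem_iff_dvd.mpr (by simp), ?_⟩
  apply Units.ext
  simp only [Units.val_mul, ModularForm.val_heckeDiagMatrix hp, ModularForm.val_heckeMatrix hp,
    mapGL_coe_matrix]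
  ext i k
  fin_cases i <;> fin_cases k <;>
    simp [rep, rho, Matrix.mul_apply, Fin.sum_univ_two] <;> ring

end Bezout

end FLTA.Petersson
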