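import Fermat.Agent.Petersson.Inner
import Fermat.Agent.Petersson.HeckeCosets
import Fermat.Prelude.Def_CuspForm_HeckeAlgebra

/-!
# `T_p` is self-adjoint for the Petersson pairing when `p ∤ N`
-/

set_option autoImplicit false

noncomputable section

open MeasureTheory UpperHalfPlane Matrix.SpecialLinearGroup CongruenceSubgroup
open scoped ENNReal MatrixGroups ModularForm ComplexConjugate

namespace FLTA.Petersson

theorem slash_eq_self {N : ℕ} [NeZero N] (f : CuspForm (Gamma0 N) 2) {γ : SL(2, ℤ)}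
    (hγ : γ ∈ Gamma0 N) : (⇑f : ℍ → ℂ) ∣[(2 : ℤ)] mapGL ℝ γ = f :=
  SlashInvariantFormClass.slash_action_eq f _ ⟨γ, hγ, rfl⟩

theorem scalar_slash {r : ℝ} (hr : r * r ≠ 0) (f : ℍ → ℂ) :
    f ∣[(2 : ℤ)] ModularForm.upperTriangularGL r 0 r hr = f := by
  have hr0 : r ≠ 0 := fun h => hr (by simp [h])
  funext τ
  have hdet : (ModularForm.upperTriangularGL r 0 r hr).det.val = r * r := by
    rw [Matrix.GeneralLinearGroup.val_det_apply, ModularForm.val_upperTriangularGL,
      Matrix.det_fin_two_of]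
    ring
  have hpos : 0 < (ModularForm.upperTriangularGL r 0 r hr).det.val := by
    rw [hdet]; exact mul_self_pos.mpr hr0
  have hsmul : ModularForm.upperTriangularGL r 0 r hr • τ = τ := by
    refine UpperHalfPlane.ext ?_
    rw [coe_smul_of_det_pos hpos]
    simp [num, denom, hr0]
  rw [ModularForm.slash_apply, hsmul, UpperHalfPlane.σ, if_pos hpos, hdet]
  simp [denom, abs_mul_abs_self]
  field_simp
  rw [mul_div_assoc, div_self (Complex.ofReal_ne_zero.mpr hr0), mul_one]

theorem petersson_add_sum {ι : Type*} (s : Finset ι) (F : ι → ℍ → ℂ) (g : ℍ → ℂ) (z : ℍ) :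
    petersson 2 (∑ i ∈ s, F i) g z = ∑ i ∈ s, petersson 2 (F i) g z := by
  simp [petersson, Finset.sum_apply, Finset.sum_mul]

variable {N p : ℕ} [NeZero N] (B : Bezout N p)

/-- The image of `f` under `diag(p, 1)`. -/
def diagSlash (p : ℕ) (f : CuspForm (Gamma0 N) 2) : ℍ → ℂ :=
  ⇑f ∣[(2 : ℤ)] ModularForm.heckeDiagMatrix p

theorem diagSlash_slash (hp : p ≠ 0) (f : CuspForm (Gamma0 N) 2) {γ : SL(2, ℤ)}
    (hγ : γ ∈ Gamma0 (N * p)) : diagSlash p f ∣[(2 : ℤ)] mapGL ℝ γ = diagSlash p f := by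
  obtain ⟨γ', hγ', h⟩ := Bezout.exists_diag_conj hp hγ
  rw [diagSlash, ← SlashAction.slash_mul, h, SlashAction.slash_mul, slash_eq_self f hγ']

theorem diagSlash_eq_W (f : CuspForm (Gamma0 N) 2) :
    diagSlash p f = ⇑f ∣[(2 : ℤ)] B.W := by
  rw [Bezout.W, SlashAction.slash_mul, slash_eq_self f B.rho_mem]
  rfl

theorem heckeT_eq_sum (hp : p.Prime) (f : CuspForm (Gamma0 N) 2) :
    ModularForm.heckeT 2 p f = ∑ i, diagSlash p f ∣[(2 : ℤ)] mapGL ℝ (B.rep i) := by
  rw [Fintype.sum_option, ModularForm.heckeT_def, add_comm]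
  congr 1
  · simp [Bezout.rep, diagSlash]
  · rw [← Fin.sum_univ_eq_sum_range fun j => ⇑f ∣[(2 : ℤ)] ModularForm.heckeMatrix p j]
    refine Finset.sum_congr rfl fun j _ => ?_
    obtain ⟨γ, hγ, h⟩ := B.diag_mul_rep hp.ne_zero j
    rw [diagSlash, ← SlashAction.slash_mul, h, SlashAction.slash_mul, slash_eq_self f hγ]

omit [NeZero N] in
theorem continuous_diagSlash (hp : p ≠ 0) (f : CuspForm (Gamma0 N) 2) :
    Continuous (diagSlash p f) := by
  have h : diagSlash p f = fun τ => (p : ℂ) ^ ((2 : ℤ) - 1) * f (ModularForm.heckeDiagMatrix p • τ) :=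
    funext fun τ => ModularForm.slash_heckeDiagMatrix_apply 2 hp _ τ
  rw [h]
  exact continuous_const.mul ((CuspFormClass.holo f).continuous.comp (continuous_const_smul _))

theorem bounded_petersson_diagSlash (hp : p ≠ 0) (f g : CuspForm (Gamma0 N) 2) :
    ∃ C, ∀ z, ‖petersson 2 (diagSlash p f) g z‖ ≤ C := by
  obtain ⟨C, hC⟩ := CuspFormClass.exists_bound (Γ := gammaGL N) f
  obtain ⟨D, hD⟩ := CuspFormClass.exists_bound (Γ := gammaGL N) g
  refine ⟨C * D, fun z => ?_⟩
  have hp' : (0 : ℝ) < p := by exact_mod_cast Nat.pos_of_ne_zero hp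
  have h1 := hC (ModularForm.heckeDiagMatrix p • z)
  have h2 := hD z
  have him : (ModularForm.heckeDiagMatrix p • z).im = p * z.im := by
    rw [← UpperHalfPlane.coe_im, ModularForm.coe_heckeDiagMatrix_smul hp]
    simp
  norm_num [him] at h1 h2
  rw [le_div_iff₀ (by positivity)] at h1 h2
  have heq : diagSlash p f z = (p : ℂ) ^ ((2 : ℤ) - 1) * f (ModularForm.heckeDiagMatrix p • z) :=
    ModularForm.slash_heckeDiagMatrix_apply 2 hp _ z
  rw [petersson, heq]
  norm_num
  calc _ = (‖f (ModularForm.heckeDiagMatrix p • z)‖ * (p * z.im)) * (‖g z‖ * z.im) := by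
        ring
    _ ≤ C * D := mul_le_mul h1 h2 (by positivity) (le_trans (by positivity) h1)

/-- The weight for `Γ₀(Np)` coming from the cosets. -/
def levelWeight : ℍ → ℝ≥0∞ := fun z => ∑ i, weight N ((mapGL ℝ (B.rep i))⁻¹ • z)

theorem isWeight_levelWeight (hp : p.Prime) (hpN : ¬ p ∣ N) :
    IsWeight volume (gammaGL (N * p)) (levelWeight B) :=
  IsWeight.descend (Γ' := gammaGL (N * p)) (isWeight_subgroupWeight (Gamma0 N))
    (fun i => (mapGL ℝ (B.rep i))⁻¹) (Equiv.ofBijective _ (B.bijective_cosets hp hpN))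
    fun i γ => by simp [map_inv]

theorem petersson_invariant (hp : p ≠ 0) (f g : CuspForm (Gamma0 N) 2) {γ : GL (Fin 2) ℝ}
    (hγ : γ ∈ gammaGL (N * p)) (z : ℍ) :
    petersson 2 (diagSlash p f) g (γ • z) = petersson 2 (diagSlash p f) g z := by
  obtain ⟨δ, hδ, rfl⟩ := hγ
  have hδN : δ ∈ Gamma0 N := gamma0_mem_iff_dvd.mpr
    (dvd_trans (by rw [Nat.cast_mul]; exact dvd_mul_right _ _) (gamma0_mem_iff_dvd.mp hδ))
  conv_rhs => rw [← diagSlash_slash hp f hδ, ← slash_eq_self g hδN]
  exact (petersson_slash_SL 2 (diagSlash p f) g δ z).symm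

theorem pinner_heckeT_left (hp : p.Prime) (hpN : ¬ p ∣ N) (f g : CuspForm (Gamma0 N) 2) :
    pinner (CuspForm.heckeTLin 2 hp hpN f) g =
      ∫ z, petersson 2 (diagSlash p f) g z ∂(volume.withDensity (levelWeight B)) := by
  obtain ⟨C, hC⟩ := bounded_petersson_diagSlash hp.ne_zero f g
  rw [show levelWeight B = fun z => ∑ i, weight N ((mapGL ℝ (B.rep i))⁻¹ • z) from rfl,
    ← IsWeight.integral_sum_comp_smul (h := weight N) (isWeight_subgroupWeight _).measurable
      (lintegral_subgroupWeight _) (fun i => (mapGL ℝ (B.rep i))⁻¹)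
      (petersson_continuous 2 (continuous_diagSlash hp.ne_zero f)
        (CuspFormClass.holo g).continuous).measurable hC]
  refine integral_congr_ae (Filter.Eventually.of_forall fun z => ?_)
  rw [CuspForm.coe_heckeTLin_apply, heckeT_eq_sum B hp f, petersson_add_sum]
  refine Finset.sum_congr rfl fun i _ => ?_
  conv_lhs => rw [← slash_eq_self g (B.rep_mem i)]
  rw [inv_inv]
  exact petersson_slash_SL 2 (diagSlash p f) g (B.rep i) z

theorem slash_W_inv (hp : p ≠ 0) (g : CuspForm (Gamma0 N) 2) :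
    ⇑g ∣[(2 : ℤ)] B.W⁻¹ = diagSlash p g := by
  obtain ⟨γ₀, hγ₀, h0⟩ := B.exists_W_mul_W hp
  have hWW : diagSlash p g ∣[(2 : ℤ)] (B.W * B.W) = diagSlash p g := by
    rw [h0, SlashAction.slash_mul, scalar_slash, diagSlash_slash hp g hγ₀]
  calc ⇑g ∣[(2 : ℤ)] B.W⁻¹ = (⇑g ∣[(2 : ℤ)] B.W) ∣[(2 : ℤ)] (B.W * B.W)⁻¹ := by
        rw [← SlashAction.slash_mul]; congr 1; group
    _ = (diagSlash p g ∣[(2 : ℤ)] (B.W * B.W)) ∣[(2 : ℤ)] (B.W * B.W)⁻¹ := by
        rw [hWW, diagSlash_eq_W B g]
    _ = diagSlash p g := by rw [← SlashAction.slash_mul, mul_inv_cancel, SlashAction.slash_one]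

/-- `T_p` is self-adjoint for the Petersson pairing. -/
theorem pinner_heckeT (hp : p.Prime) (hpN : ¬ p ∣ N) (f g : CuspForm (Gamma0 N) 2) :
    pinner (CuspForm.heckeTLin 2 hp hpN f) g = pinner f (CuspForm.heckeTLin 2 hp hpN g) := by
  obtain ⟨B⟩ := exists_bezout hp hpN
  have hW := isWeight_levelWeight B hp hpN
  have : Countable (gammaGL (N * p)) := countable_map _
  have hpos : 0 < B.W.det.val := by
    rw [Bezout.W, map_mul, Units.val_mul, det_mapGL, Units.val_one, one_mul,
      ModularForm.det_heckeDiagMatrix hp.ne_zero]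
    exact_mod_cast hp.pos
  have hσ : UpperHalfPlane.σ B.W = .refl ℝ ℂ := by rw [UpperHalfPlane.σ, if_pos hpos]
  set Φ := fun z => petersson 2 f (diagSlash p g) z with hΦ
  have hinv : ∀ γ ∈ gammaGL (N * p), ∀ z, Φ (γ • z) = Φ z := fun γ hγ z => by
    simp only [hΦ, petersson_symm 2 (diagSlash p g) f, petersson_invariant hp.ne_zero g f hγ z]
  have hmeas : Measurable Φ := (petersson_continuous 2 (CuspFormClass.holo f).continuous
    (continuous_diagSlash hp.ne_zero g)).measurable
  have hmid : ∀ z, petersson 2 (diagSlash p f) g z = Φ (B.W • z) := fun z => by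
    have h := petersson_slash 2 f (diagSlash p g) B.W z
    rw [← slash_W_inv B hp.ne_zero g, ← SlashAction.slash_mul, inv_mul_cancel,
      SlashAction.slash_one, ← diagSlash_eq_W B f, hσ, slash_W_inv B hp.ne_zero g] at h
    simpa using h
  have hleft : pinner (CuspForm.heckeTLin 2 hp hpN f) g =
      ∫ z, Φ z ∂(volume.withDensity (levelWeight B)) := by
    rw [pinner_heckeT_left B hp hpN f g]
    calc ∫ z, petersson 2 (diagSlash p f) g z ∂(volume.withDensity (levelWeight B))
        = ∫ z, Φ (B.W • z) ∂(volume.withDensity (levelWeight B)) := by simp only [hmid]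
      _ = ∫ z, Φ z ∂(volume.withDensity fun z => levelWeight B (B.W⁻¹ • z)) :=
          integral_comp_smul hW.measurable _ hmeas
      _ = _ := (hW.comp_smul B.W⁻¹ (B.W_normalizes hp.ne_zero)).integral_eq hW hmeas hinv
  rw [hleft, pinner_conj_symm (CuspForm.heckeTLin 2 hp hpN g) f,
    pinner_heckeT_left B hp hpN g f, ← integral_conj]
  simp only [hΦ, ← petersson_symm]

/-- The operators commuting with the pairing on both sides. -/
def selfAdjointSubmodule (N : ℕ) [NeZero N] :
    AddSubgroup (Module.End ℂ (CuspForm (Gamma0 N) 2)) where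
  carrier := {t | ∀ f g, pinner (t f) g = pinner f (t g)}
  add_mem' {s t} hs ht f g := by
    simp only [LinearMap.add_apply, pinner_add_left, pinner_add_right, hs f g, ht f g]
  zero_mem' f g := by
    have h : ∀ f : CuspForm (Gamma0 N) 2, pinner (0 : CuspForm (Gamma0 N) 2) f = 0 := fun f => by
      simpa using pinner_smul_left 0 (0 : CuspForm (Gamma0 N) 2) f
    rw [LinearMap.zero_apply, LinearMap.zero_apply, h, pinner_conj_symm 0 f, h, map_zero]
  neg_mem' {t} ht f g := by
    have h1 : ∀ f g : CuspForm (Gamma0 N) 2, pinner (-f) g = -pinner f g := fun f g => by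
      simpa using pinner_smul_left (-1) f g
    rw [LinearMap.neg_apply, LinearMap.neg_apply, h1, pinner_conj_symm (-t g) f, h1, map_neg,
      ← pinner_conj_symm, ht f g]

/-- Every element of the good Hecke algebra is self-adjoint for the Petersson pairing. -/
theorem pinner_heckeAlgebra {S : Set ℕ} (hS : ∀ q : ℕ, q.Prime → q ∣ N → q ∈ S)
    (t : CuspForm.heckeAlgebra N 2 S) (f g : CuspForm (Gamma0 N) 2) :
    pinner ((t : Module.End ℂ _) f) g = pinner f ((t : Module.End ℂ _) g) := by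
  obtain ⟨t, ht⟩ := t
  suffices h : ∀ f g, pinner (t f) g = pinner f (t g) from h f g
  induction ht using Algebra.adjoin_induction with
  | mem x hx =>
    rcases hx with ⟨ℓ, hℓ, hℓN, -, rfl⟩ | ⟨q, hqN, hq, hqS, rfl⟩
    · exact pinner_heckeT hℓ hℓN
    · exact absurd (hS q hq hqN) hqS
  | algebraMap n =>
    rw [Algebra.algebraMap_eq_smul_one]
    exact (selfAdjointSubmodule N).zsmul_mem (fun f g => rfl : (1 : Module.End ℂ (CuspForm (Gamma0 N) 2)) ∈ selfAdjointSubmodule N) n
  | add x y _ _ hx hy => exact (selfAdjointSubmodule N).add_mem hx hy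
  | mul x y hxm hym hx hy =>
    intro f g
    have hc : x * y = y * x := congr_arg Subtype.val
      (mul_comm (⟨x, hxm⟩ : CuspForm.heckeAlgebra N 2 S) ⟨y, hym⟩)
    conv_rhs => rw [hc]
    rw [Module.End.mul_apply, Module.End.mul_apply, hx, hy]

/-- The good Hecke algebra of weight two is reduced. -/
theorem isReduced_heckeAlgebra {S : Set ℕ} (hS : ∀ q : ℕ, q.Prime → q ∣ N → q ∈ S) :
    IsReduced (CuspForm.heckeAlgebra N 2 S) := by
  rw [isReduced_iff_pow_one_lt 2 one_lt_two]
  intro x hx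
  refine Subtype.ext (LinearMap.ext fun f => ?_)
  refine eq_zero_of_pinner_self_eq_zero ?_
  rw [pinner_heckeAlgebra hS x]
  have h : (x : Module.End ℂ _) ((x : Module.End ℂ _) f) = 0 := by
    have := LinearMap.congr_fun (congr_arg Subtype.val hx) f
    simpa [pow_two] using this
  rw [h, pinner_conj_symm (0 : CuspForm (Gamma0 N) 2)]
  have := pinner_smul_left 0 (0 : CuspForm (Gamma0 N) 2) f
  simp only [zero_smul, map_zero, zero_mul] at this
  rw [this, map_zero]

end FLTA.Petersson
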