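import Fermat.Prelude.Def_CuspForm_HeckeAlgebra
import Fermat.Agent.Petersson.HeckeAdjoint
import Mathlib.RingTheory.Unramified.Field
import Mathlib.RingTheory.Unramified.Pi
import Mathlib.RingTheory.Artinian.Module
import Mathlib.RingTheory.TensorProduct.Basic
import Mathlib.RingTheory.LocalRing.Basic
import Mathlib.RingTheory.IntegralClosure.IsIntegralClosure.Basic
import Mathlib.FieldTheory.IsAlgClosed.AlgebraicClosure
import Mathlib.LinearAlgebra.FreeModule.PID
import Mathlib.RingTheory.Localization.FractionRing

/-!
# Reducedness of weight-two Hecke algebras away from the level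

Interface for the consumers of Petersson self-adjointness: if `S` contains every prime dividing
`N`, then `heckeAlgebra N 2 S` is reduced, stays reduced after tensoring with a characteristic zero
domain, and so do its torsion-free quotients.
-/

set_option autoImplicit false

noncomputable section

open scoped TensorProduct

namespace FLTA.Petersson

/-- The good Hecke algebra of weight two is reduced. -/
theorem heckeAlgebra_isReduced (N : ℕ) [NeZero N] (S : Set ℕ)
    (hS : ∀ q : ℕ, q.Prime → q ∣ N → q ∈ S) :
    IsReduced (CuspForm.heckeAlgebra N 2 S) :=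
  isReduced_heckeAlgebra hS

section Algebra

variable {H : Type*} [CommRing H] [IsReduced H] [IsAddTorsionFree H] [Module.Finite ℤ H]

omit [IsReduced H] in
theorem flat_int : Module.Flat ℤ H := by
  have : Module.Free ℤ H := Module.free_of_finite_type_torsion_free'
  infer_instance

omit [IsReduced H] [IsAddTorsionFree H] [Module.Finite ℤ H] in
theorem exists_nsmul_eq_one_tmul (x : ℚ ⊗[ℤ] H) :
    ∃ (n : ℕ) (t : H), n ≠ 0 ∧ n • x = 1 ⊗ₜ[ℤ] t := by
  induction x with
  | zero => exact ⟨1, 0, one_ne_zero, by simp⟩
  | tmul q t =>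
    refine ⟨q.den, q.num • t, q.den_nz, ?_⟩
    rw [TensorProduct.smul_tmul', TensorProduct.tmul_smul, TensorProduct.smul_tmul']
    congr 1
    rw [nsmul_eq_mul, zsmul_eq_mul, mul_one, mul_comm, Rat.mul_den_eq_num]
  | add x y hx hy =>
    obtain ⟨n, s, hn, hs⟩ := hx
    obtain ⟨m, t, hm, ht⟩ := hy
    refine ⟨n * m, m • s + n • t, mul_ne_zero hn hm, ?_⟩
    rw [smul_add, TensorProduct.tmul_add, TensorProduct.tmul_smul, TensorProduct.tmul_smul, ← hs,
      ← ht, ← mul_smul, ← mul_smul, mul_comm m n]

/-- `ℚ ⊗ H` is reduced. -/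
theorem isReduced_rat_tensor : IsReduced (ℚ ⊗[ℤ] H) := by
  have := flat_int (H := H)
  constructor
  intro x ⟨k, hk⟩
  obtain ⟨n, t, hn, ht⟩ := exists_nsmul_eq_one_tmul x
  have hinj : Function.Injective (Algebra.TensorProduct.includeRight : H →ₐ[ℤ] ℚ ⊗[ℤ] H) :=
    Algebra.TensorProduct.includeRight_injective (RingHom.injective_int _)
  have h1 : (Algebra.TensorProduct.includeRight : H →ₐ[ℤ] ℚ ⊗[ℤ] H) (t ^ k) = 0 := by
    rw [map_pow, Algebra.TensorProduct.includeRight_apply, ← ht, nsmul_eq_mul, mul_pow, hk,
      mul_zero]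
  have h2 : t = 0 := IsNilpotent.eq_zero ⟨k, hinj (h1.trans (map_zero _).symm)⟩
  rw [h2, TensorProduct.tmul_zero] at ht
  have hu : IsUnit (n : ℚ ⊗[ℤ] H) := by
    rw [← map_natCast (algebraMap ℚ (ℚ ⊗[ℤ] H))]
    exact (isUnit_iff_ne_zero.mpr (Nat.cast_ne_zero.mpr hn)).map _
  rwa [nsmul_eq_mul, hu.mul_right_eq_zero] at ht

/-- A reduced finite algebra over a perfect field is unramified. -/
theorem formallyUnramified_of_isReduced (k A : Type*) [Field k] [PerfectField k] [CommRing A]
    [Algebra k A] [Module.Finite k A] [IsReduced A] : Algebra.FormallyUnramified k A := by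
  have : IsArtinianRing A := IsArtinianRing.of_finite k A
  let _ : ∀ I : MaximalSpectrum A, Field (A ⧸ I.asIdeal) := fun I => Ideal.Quotient.field _
  have h : ∀ I : MaximalSpectrum A, Algebra.FormallyUnramified k (A ⧸ I.asIdeal) := fun I =>
    Algebra.FormallyUnramified.of_isSeparable k _
  exact Algebra.FormallyUnramified.of_equiv
    ((IsArtinianRing.equivPi A).restrictScalars k).symm

/-- The base change of a reduced finite torsion-free `ℤ`-algebra to a characteristic zero field is
unramified over that field. -/
theorem formallyUnramified_tensor (K : Type*) [Field K] [CharZero K] :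
    Algebra.FormallyUnramified K (K ⊗[ℤ] H) := by
  have := isReduced_rat_tensor (H := H)
  have := formallyUnramified_of_isReduced ℚ (ℚ ⊗[ℤ] H)
  exact Algebra.FormallyUnramified.of_equiv
    (Algebra.TensorProduct.cancelBaseChange ℤ ℚ K K H)

/-- A finite unramified algebra over a field is reduced. -/
theorem isReduced_of_formallyUnramified (K A : Type*) [Field K] [CommRing A] [Algebra K A]
    [Module.Finite K A] [Algebra.FormallyUnramified K A] : IsReduced A :=
  Algebra.FormallyUnramified.isReduced_of_field K A

section Generic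

variable {O : Type*} [CommRing O] [IsDomain O] [CharZero O]
  (K : Type*) [Field K] [CharZero K] [Algebra O K] [IsFractionRing O K]

include K in
omit [IsDomain O] [CharZero O] in
theorem isReduced_tensor_aux : IsReduced (O ⊗[ℤ] H) := by
  have := flat_int (H := H)
  have := formallyUnramified_tensor (H := H) K
  have := isReduced_of_formallyUnramified K (K ⊗[ℤ] H)
  exact isReduced_of_injective
    (Algebra.TensorProduct.map (IsScalarTower.toAlgHom ℤ O K) (AlgHom.id ℤ H))
    (Module.Flat.rTensor_preserves_injective_linearMap _ (IsFractionRing.injective O K))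

variable {T : Type*} [CommRing T] [Algebra O T]
  (f : O ⊗[ℤ] H →ₐ[O] T) (hf : Function.Surjective f)

include f hf in
omit [IsDomain O] [CharZero O] [IsFractionRing O K] in
theorem formallyUnramified_generic_fibre :
    Algebra.FormallyUnramified K (K ⊗[O] T) ∧ Module.Finite K (K ⊗[O] T) ∧
      IsReduced (K ⊗[O] T) := by
  have := formallyUnramified_tensor (H := H) K
  let g : K ⊗[ℤ] H →ₐ[K] K ⊗[O] T :=
    (Algebra.TensorProduct.map (AlgHom.id K K) f).comp
      (Algebra.TensorProduct.cancelBaseChange ℤ O K K H).symm.toAlgHom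
  have hg : Function.Surjective g := by
    rw [AlgHom.coe_comp]
    exact (Algebra.TensorProduct.map_surjective (AlgHom.id K K) f Function.surjective_id hf).comp
      (Algebra.TensorProduct.cancelBaseChange ℤ O K K H).symm.surjective
  have h := Algebra.FormallyUnramified.of_surjective g hg
  have hfin : Module.Finite K (K ⊗[O] T) := Module.Finite.of_surjective g.toLinearMap hg
  exact ⟨h, hfin, isReduced_of_formallyUnramified K (K ⊗[O] T)⟩

include K f hf in
omit [IsDomain O] [CharZero O] in
theorem isReduced_of_surjective_aux [Module.Flat O T] : IsReduced T := by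
  obtain ⟨-, -, h⟩ := formallyUnramified_generic_fibre K f hf
  exact isReduced_of_injective (Algebra.TensorProduct.includeRight : T →ₐ[O] K ⊗[O] T)
    (Algebra.TensorProduct.includeRight_injective (IsFractionRing.injective O K))

include K f hf in
omit [IsDomain O] [CharZero O] in
theorem exists_point_ne_zero_aux [Module.Flat O T]
    (Ω : Type*) [Field Ω] [IsAlgClosed Ω] [Algebra O Ω] (hO : Function.Injective (algebraMap O Ω))
    {x : T} (hx : x ≠ 0) : ∃ φ : T →ₐ[O] Ω, φ x ≠ 0 := by
  let _ : Algebra K Ω := (IsFractionRing.lift hO : K →+* Ω).toAlgebra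
  have : IsScalarTower O K Ω := IsScalarTower.of_algebraMap_eq fun a => by
    rw [RingHom.algebraMap_toAlgebra, IsFractionRing.lift_algebraMap]
  obtain ⟨-, hfin, hred⟩ := formallyUnramified_generic_fibre K f hf
  have : IsArtinianRing (K ⊗[O] T) := IsArtinianRing.of_finite K (K ⊗[O] T)
  have hx' : (1 : K) ⊗ₜ[O] x ≠ 0 := fun h => hx <|
    Algebra.TensorProduct.includeRight_injective (B := T) (IsFractionRing.injective O K)
      (h.trans (map_zero (Algebra.TensorProduct.includeRight : T →ₐ[O] K ⊗[O] T)).symm)
  obtain ⟨P, hP⟩ : ∃ P : MaximalSpectrum (K ⊗[O] T), (1 : K) ⊗ₜ[O] x ∉ P.asIdeal := by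
    by_contra! h
    apply hx'
    apply (IsArtinianRing.equivPi (K ⊗[O] T)).injective
    funext P
    rw [IsArtinianRing.equivPi_apply, map_zero, Pi.zero_apply]
    exact Ideal.Quotient.eq_zero_iff_mem.mpr (h P)
  let _ : Field ((K ⊗[O] T) ⧸ P.asIdeal) := Ideal.Quotient.field _
  let ψ : (K ⊗[O] T) ⧸ P.asIdeal →ₐ[K] Ω := IsAlgClosed.lift
  refine ⟨((ψ.comp (Ideal.Quotient.mkₐ K P.asIdeal)).restrictScalars O).comp
    Algebra.TensorProduct.includeRight, fun h => hP ?_⟩
  rw [AlgHom.comp_apply, AlgHom.restrictScalars_apply, AlgHom.comp_apply,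
    Algebra.TensorProduct.includeRight_apply, map_eq_zero] at h
  exact Ideal.Quotient.eq_zero_iff_mem.mp h

end Generic

theorem charZero_fractionRing (O : Type*) [CommRing O] [IsDomain O] [CharZero O] :
    CharZero (FractionRing O) :=
  charZero_of_injective_algebraMap (IsFractionRing.injective O (FractionRing O))

/-- The base change of a reduced finite torsion-free `ℤ`-algebra to a characteristic zero domain is
reduced. -/
theorem isReduced_tensor (O : Type*) [CommRing O] [IsDomain O] [CharZero O] :
    IsReduced (O ⊗[ℤ] H) :=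
  have := charZero_fractionRing O
  isReduced_tensor_aux (FractionRing O)

/-- A flat quotient of `O ⊗ H` is reduced. -/
theorem isReduced_of_surjective {O : Type*} [CommRing O] [IsDomain O] [CharZero O]
    {T : Type*} [CommRing T] [Algebra O T] [Module.Flat O T]
    (f : O ⊗[ℤ] H →ₐ[O] T) (hf : Function.Surjective f) : IsReduced T :=
  have := charZero_fractionRing O
  isReduced_of_surjective_aux (FractionRing O) f hf

/-- Points with values in an algebraic closure separate the elements of a flat quotient of
`O ⊗ H`. -/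
theorem exists_point_ne_zero {O : Type*} [CommRing O] [IsDomain O] [CharZero O]
    {T : Type*} [CommRing T] [Algebra O T] [Module.Flat O T]
    (f : O ⊗[ℤ] H →ₐ[O] T) (hf : Function.Surjective f)
    (Ω : Type*) [Field Ω] [IsAlgClosed Ω] [Algebra O Ω] (hO : Function.Injective (algebraMap O Ω))
    {x : T} (hx : x ≠ 0) : ∃ φ : T →ₐ[O] Ω, φ x ≠ 0 :=
  have := charZero_fractionRing O
  exists_point_ne_zero_aux (FractionRing O) f hf Ω hO hx

/-- The same for `T` described through a generating ring homomorphism from `H`. -/
theorem isReduced_of_adjoin_eq_top {O : Type*} [CommRing O] [IsDomain O] [CharZero O]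
    {T : Type*} [CommRing T] [Algebra O T] [Module.Flat O T]
    (g : H →+* T) (hg : Algebra.adjoin O (Set.range g) = ⊤) : IsReduced T := by
  refine isReduced_of_surjective (H := H)
    (Algebra.TensorProduct.lift (Algebra.ofId O T) g.toIntAlgHom fun _ _ => Commute.all _ _) ?_
  rw [← AlgHom.range_eq_top, eq_top_iff, ← hg, Algebra.adjoin_le_iff]
  rintro _ ⟨t, rfl⟩
  exact ⟨1 ⊗ₜ t, by simp⟩

end Algebra

end FLTA.Petersson
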