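import Fermat.Agent.Petersson.Weight
import Mathlib.Analysis.Complex.UpperHalfPlane.Measure
import Mathlib.NumberTheory.Modular
import Mathlib.NumberTheory.ModularForms.ArithmeticSubgroups
import Mathlib.MeasureTheory.Measure.Lebesgue.Complex
import Mathlib.MeasureTheory.Measure.Lebesgue.EqHaar
import Mathlib.Analysis.SpecialFunctions.ImproperIntegrals

/-!
# The finite weight coming from the standard fundamental domain
-/

set_option autoImplicit false

noncomputable section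

open MeasureTheory Matrix.SpecialLinearGroup UpperHalfPlane
open scoped ENNReal MatrixGroups Modular NNReal

namespace FLTA.Petersson

theorem volume_eq_zero_of_image {s : Set ℍ} (hs : volume (UpperHalfPlane.coe '' s : Set ℂ) = 0) :
    volume s = 0 := by
  rw [UpperHalfPlane.volume_eq_lintegral, setLIntegral_measure_zero _ _ hs]

theorem eq_empty_of_isOpen_of_volume_eq_zero {s : Set ℍ} (hs : IsOpen s) (h0 : volume s = 0) :
    s = ∅ := by
  rw [UpperHalfPlane.volume_def, withDensity_apply_eq_zero (by fun_prop)] at h0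
  have hpos : {x : ℍ | ((1 / NNReal.mk x.im x.im_pos.le : ℝ≥0) ^ 2 : ℝ≥0) ≠ (0 : ℝ≥0∞)} =
      Set.univ := by
    ext x
    simp [x.im_ne_zero, NNReal.eq_iff]
  rw [hpos, Set.univ_inter, UpperHalfPlane.measurableEmbedding_coe.comap_apply] at h0
  exact Set.image_eq_empty.mp
    ((UpperHalfPlane.isOpenEmbedding_coe.isOpenMap s hs).measure_eq_zero_iff volume |>.mp h0)

theorem volume_fd_diff_fdo : volume (𝒟 \ 𝒟ᵒ) = 0 := by
  refine volume_eq_zero_of_image (measure_mono_null (t := Metric.sphere (0 : ℂ) 1 ∪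
    Complex.measurableEquivRealProd ⁻¹' (({1 / 2, -(1 / 2)} : Set ℝ) ×ˢ Set.univ)) ?_ ?_)
  · rintro _ ⟨z, ⟨hz, hz'⟩, rfl⟩
    rcases (Complex.one_le_normSq_iff.mp hz.1).lt_or_eq with h | h
    · refine Or.inr ⟨?_, trivial⟩
      have h2 : ¬ |z.re| < 1 / 2 := fun h' => hz' ⟨Complex.one_lt_normSq_iff.mpr h, h'⟩
      have h3 : |z.re| = 1 / 2 := le_antisymm hz.2 (not_lt.mp h2)
      simpa [Complex.measurableEquivRealProd_apply] using eq_or_eq_neg_of_abs_eq h3
    · exact Or.inl (by simpa using h.symm)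
  · refine measure_union_null (Measure.addHaar_sphere _ _ _) ?_
    rw [Complex.volume_preserving_equiv_real_prod.measure_preimage_equiv,
      Measure.volume_eq_prod, Measure.prod_prod, Set.Finite.measure_zero (Set.toFinite _) volume,
      zero_mul]

theorem volume_fdo_lt_top : volume 𝒟ᵒ < ∞ := by
  rw [UpperHalfPlane.volume_eq_lintegral]
  let u : ℝ × ℝ → ℝ≥0∞ := fun p => ENNReal.ofReal (p.2 ^ (-2 : ℝ))
  have hu : Measurable u := by fun_prop
  have hsub : (UpperHalfPlane.coe '' 𝒟ᵒ : Set ℂ) ⊆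
      Complex.measurableEquivRealProd ⁻¹' (Set.Icc (-1) 1 ×ˢ Set.Ioi (1 / 2 : ℝ)) := by
    rintro _ ⟨z, hz, rfl⟩
    have h1 := ModularGroup.three_lt_four_mul_im_sq_of_mem_fdo hz
    have h2 := abs_lt.mp hz.2
    simp only [Set.mem_preimage, Complex.measurableEquivRealProd_apply, Set.mem_prod, Set.mem_Icc,
      Set.mem_Ioi, coe_re, coe_im]
    exact ⟨⟨by linarith, by linarith⟩, by nlinarith [z.im_pos]⟩
  refine lt_of_le_of_lt (lintegral_mono_set hsub) ?_
  have heq : ∀ z ∈ Complex.measurableEquivRealProd ⁻¹' (Set.Icc (-1) 1 ×ˢ Set.Ioi (1 / 2 : ℝ)),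
      (↑((1 / ‖z.im‖₊) ^ 2 : ℝ≥0) : ℝ≥0∞) = u (Complex.measurableEquivRealProd z) := by
    intro z hz
    have h0 : (0 : ℝ) < z.im := lt_trans (by norm_num) hz.2
    simp only [u, Complex.measurableEquivRealProd_apply]
    rw [← ENNReal.ofReal_coe_nnreal]
    congr 1
    push_cast
    rw [Real.norm_of_nonneg h0.le, Real.rpow_neg h0.le, Real.rpow_two, one_div, inv_pow]
  rw [setLIntegral_congr_fun (Complex.measurableEquivRealProd.measurable
      (measurableSet_Icc.prod measurableSet_Ioi)) heq,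
    Complex.volume_preserving_equiv_real_prod.setLIntegral_comp_preimage
      (measurableSet_Icc.prod measurableSet_Ioi) hu,
    Measure.volume_eq_prod, ← Measure.prod_restrict, lintegral_prod _ hu.aemeasurable]
  simp only [u, lintegral_const, Measure.restrict_apply_univ, Real.volume_Icc]
  exact ENNReal.mul_lt_top
    (integrableOn_Ioi_rpow_of_lt (by norm_num) (by norm_num)).lintegral_lt_top ENNReal.ofReal_lt_top

/-- The weight of the full modular group. -/
def baseWeight : ℍ → ℝ≥0∞ := Set.indicator 𝒟ᵒ fun _ => 2⁻¹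

theorem countable_sl2 : Countable SL(2, ℤ) :=
  have : Countable (Matrix (Fin 2) (Fin 2) ℤ) := inferInstanceAs (Countable (Fin 2 → Fin 2 → ℤ))
  (Subtype.val_injective.countable :
    Countable {A : Matrix (Fin 2) (Fin 2) ℤ // A.det = 1})

theorem countable_map (Γ : Subgroup SL(2, ℤ)) : Countable (Γ.map (mapGL ℝ)) :=
  have := countable_sl2
  have : Countable Γ := Subtype.val_injective.countable
  Function.Surjective.countable (f := fun γ : Γ =>
      (⟨mapGL ℝ γ.1, γ.1, γ.2, rfl⟩ : Γ.map (mapGL ℝ))) fun x => by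
    obtain ⟨_, γ, hγ, rfl⟩ := x
    exact ⟨⟨γ, hγ⟩, rfl⟩

theorem ae_smul_notMem_boundary :
    ∀ᵐ z : ℍ, ∀ g : SL(2, ℤ), mapGL ℝ g • z ∉ 𝒟 \ 𝒟ᵒ :=
  have := countable_sl2
  ae_all_iff.mpr fun g =>
    ae_smul_iff (G := GL (Fin 2) ℝ) (mapGL ℝ g) (measure_eq_zero_iff_ae_notMem.mp volume_fd_diff_fdo)

theorem isWeight_baseWeight : IsWeight volume 𝒮ℒ baseWeight := by
  refine ⟨measurable_const.indicator ModularGroup.isOpen_fdo.measurableSet, ?_⟩
  filter_upwards [ae_smul_notMem_boundary] with z hz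
  obtain ⟨g, hg⟩ := ModularGroup.exists_smul_mem_fd z
  have hgo : g • z ∈ 𝒟ᵒ := by
    by_contra h
    exact hz g ⟨hg, h⟩
  let e : SL(2, ℤ) ≃ MonoidHom.range (mapGL ℝ : SL(2, ℤ) →* GL (Fin 2) ℝ) :=
    (MonoidHom.ofInjective mapGL_injective).toEquiv
  rw [← e.tsum_eq]
  change ∑' γ : SL(2, ℤ), baseWeight (γ • z) = 1
  have hne : g ≠ -g := fun h => by
    have h1 := congr_arg (fun m : SL(2, ℤ) => g⁻¹ * m) h
    simp only [inv_mul_cancel, mul_neg] at h1
    exact absurd (congr_arg (fun m : SL(2, ℤ) => (m : Matrix (Fin 2) (Fin 2) ℤ) 0 0) h1) (by simp)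
  rw [tsum_eq_sum (s := {g, -g}) fun γ hγ => ?_, Finset.sum_pair hne]
  · rw [baseWeight, Set.indicator_of_mem hgo, Set.indicator_of_mem (by rwa [ModularGroup.SL_neg_smul]),
      ENNReal.inv_two_add_inv_two]
  · refine Set.indicator_of_notMem (fun hγo => hγ ?_) _
    have h2 : (γ * g⁻¹) • g • z ∈ 𝒟ᵒ := by rwa [← mul_smul, inv_mul_cancel_right]
    rcases ModularGroup.eq_one_or_neg_one_of_mem_fdo_mem_fdo hgo h2 with h | h
    · simp [mul_inv_eq_one.mp h]
    · have h3 : γ = -g := by rw [← inv_mul_cancel_right γ g, h, neg_mul, one_mul]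
      simp [h3]

theorem lintegral_baseWeight : ∫⁻ z, baseWeight z ≠ ∞ := by
  rw [baseWeight, lintegral_indicator_const ModularGroup.isOpen_fdo.measurableSet]
  exact (ENNReal.mul_lt_top (by simp) volume_fdo_lt_top).ne

/-- A weight for a finite index subgroup of the modular group, from coset representatives. -/
def subgroupWeight (Γ : Subgroup SL(2, ℤ)) [Γ.FiniteIndex] : ℍ → ℝ≥0∞ :=
  let _ := Subgroup.fintypeQuotientOfFiniteIndex (H := Γ)
  fun z => ∑ q : SL(2, ℤ) ⧸ Γ, baseWeight (mapGL ℝ q.out • z)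

variable (Γ : Subgroup SL(2, ℤ)) [Γ.FiniteIndex]

theorem isWeight_subgroupWeight : IsWeight volume (Γ.map (mapGL ℝ)) (subgroupWeight Γ) := by
  let _ := Subgroup.fintypeQuotientOfFiniteIndex (H := Γ)
  let f : (SL(2, ℤ) ⧸ Γ) × Γ.map (mapGL ℝ) → MonoidHom.range (mapGL ℝ : SL(2, ℤ) →* GL (Fin 2) ℝ) :=
    fun p => ⟨mapGL ℝ p.1.out * p.2,
      mul_mem ⟨p.1.out, rfl⟩ (by obtain ⟨γ, -, hγ⟩ := p.2.2; exact ⟨γ, hγ⟩)⟩
  have hf : Function.Bijective f := by
    refine ⟨?_, ?_⟩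
    · rintro ⟨q, _, γ, hγ, rfl⟩ ⟨q', _, γ', hγ', rfl⟩ h
      have h1 : q.out * γ = q'.out * γ' :=
        mapGL_injective (by simpa [f, Subtype.ext_iff] using h)
      have h2 : q = q' := by
        rw [← q.out_eq, ← q'.out_eq]
        refine QuotientGroup.eq.mpr ?_
        have h3 : q.out⁻¹ * q'.out = γ * γ'⁻¹ := by
          rw [← mul_inv_eq_iff_eq_mul.mpr h1]; group
        rw [h3]
        exact mul_mem hγ (inv_mem hγ')
      subst h2
      simp [mul_left_cancel h1]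
    · rintro ⟨_, δ, rfl⟩
      obtain ⟨γ, hγ⟩ := QuotientGroup.mk_out_eq_mul Γ δ
      refine ⟨⟨δ, ⟨mapGL ℝ (γ : SL(2, ℤ))⁻¹, _, inv_mem γ.2, rfl⟩⟩, Subtype.ext ?_⟩
      simp [f, hγ]
  exact isWeight_baseWeight.descend _ (Equiv.ofBijective f hf) fun _ _ => rfl

theorem lintegral_subgroupWeight : ∫⁻ z, subgroupWeight Γ z ≠ ∞ := by
  let _ := Subgroup.fintypeQuotientOfFiniteIndex (H := Γ)
  unfold subgroupWeight
  rw [lintegral_finsetSum (f := fun (q : SL(2, ℤ) ⧸ Γ) z => baseWeight (mapGL ℝ q.out • z)) _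
    fun q _ => isWeight_baseWeight.measurable.comp (measurable_const_smul _)]
  refine (ENNReal.sum_lt_top.mpr fun q _ => ?_).ne
  rw [lintegral_smul_eq isWeight_baseWeight.measurable]
  exact lintegral_baseWeight.lt_top

theorem exists_isOpen_subgroupWeight :
    ∃ U : Set ℍ, IsOpen U ∧ U.Nonempty ∧ ∀ z ∈ U, subgroupWeight Γ z ≠ 0 := by
  let _ := Subgroup.fintypeQuotientOfFiniteIndex (H := Γ)
  let g : GL (Fin 2) ℝ := mapGL ℝ (Quotient.out (⟦1⟧ : SL(2, ℤ) ⧸ Γ))
  refine ⟨(g • ·) ⁻¹' 𝒟ᵒ, ModularGroup.isOpen_fdo.preimage (continuous_const_smul g), ?_, ?_⟩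
  · obtain ⟨w, hw⟩ : (𝒟ᵒ).Nonempty :=
      ⟨⟨2 * Complex.I, by simp⟩, by constructor <;> norm_num [Complex.normSq]⟩
    exact ⟨g⁻¹ • w, by simpa using hw⟩
  · intro z hz h0
    have := Finset.sum_eq_zero_iff.mp h0 ⟦1⟧ (Finset.mem_univ _)
    rw [baseWeight, Set.indicator_of_mem (Set.mem_preimage.mp hz : g • z ∈ 𝒟ᵒ)] at this
    simp at this

end FLTA.Petersson
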