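import Fermat.Agent.Petersson.Domain
import Mathlib.NumberTheory.ModularForms.Bounds
import Mathlib.NumberTheory.ModularForms.CongruenceSubgroups

/-!
# The Petersson pairing on weight-two cusp forms for `Γ₀(N)`
-/

set_option autoImplicit false

noncomputable section

open MeasureTheory UpperHalfPlane Matrix.SpecialLinearGroup
open scoped ENNReal MatrixGroups ModularForm ComplexConjugate

namespace FLTA.Petersson

/-- `Γ₀(N)` as a subgroup of `GL₂(ℝ)`. -/
abbrev gammaGL (N : ℕ) : Subgroup (GL (Fin 2) ℝ) := (CongruenceSubgroup.Gamma0 N).map (mapGL ℝ)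

variable {N : ℕ} [NeZero N]

variable (N) in
/-- A weight for `Γ₀(N)`. -/
def weight : ℍ → ℝ≥0∞ := subgroupWeight (CongruenceSubgroup.Gamma0 N)

variable (N) in
/-- The measure used for integrating `Γ₀(N)`-invariant functions. -/
def weightMeasure : Measure ℍ := volume.withDensity (weight N)

instance : IsFiniteMeasure (weightMeasure N) :=
  isFiniteMeasure_withDensity (lintegral_subgroupWeight _)

/-- The Petersson pairing. -/
def pinner (f g : CuspForm (CongruenceSubgroup.Gamma0 N) 2) : ℂ :=
  ∫ z, petersson 2 f g z ∂(weightMeasure N)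

theorem integrable_petersson (f g : CuspForm (CongruenceSubgroup.Gamma0 N) 2) :
    Integrable (petersson 2 f g) (weightMeasure N) := by
  obtain ⟨C, hC⟩ := CuspFormClass.petersson_bounded_left 2
    (gammaGL N) f g
  exact Integrable.of_bound
    (petersson_continuous 2 (CuspFormClass.holo f).continuous
      (CuspFormClass.holo g).continuous).aestronglyMeasurable C (Filter.Eventually.of_forall hC)

theorem pinner_conj_symm (f g : CuspForm (CongruenceSubgroup.Gamma0 N) 2) :
    pinner g f = conj (pinner f g) := by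
  rw [pinner, pinner, ← integral_conj]
  exact integral_congr_ae (Filter.Eventually.of_forall fun z => petersson_symm 2 f g z)

theorem pinner_add_left (f₁ f₂ g : CuspForm (CongruenceSubgroup.Gamma0 N) 2) :
    pinner (f₁ + f₂) g = pinner f₁ g + pinner f₂ g := by
  rw [pinner, pinner, pinner, ← integral_add (integrable_petersson f₁ g) (integrable_petersson f₂ g)]
  refine integral_congr_ae (Filter.Eventually.of_forall fun z => ?_)
  simp [petersson, add_mul]

theorem pinner_add_right (f g₁ g₂ : CuspForm (CongruenceSubgroup.Gamma0 N) 2) :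
    pinner f (g₁ + g₂) = pinner f g₁ + pinner f g₂ := by
  rw [pinner_conj_symm (g₁ + g₂) f, pinner_add_left, map_add, ← pinner_conj_symm, ← pinner_conj_symm]

theorem pinner_smul_left (c : ℂ) (f g : CuspForm (CongruenceSubgroup.Gamma0 N) 2) :
    pinner (c • f) g = conj c * pinner f g := by
  rw [pinner, pinner, ← integral_const_mul]
  refine integral_congr_ae (Filter.Eventually.of_forall fun z => ?_)
  simp [petersson, mul_assoc]

theorem petersson_self (f : ℍ → ℂ) (z : ℍ) :
    petersson 2 f f z = ((Complex.normSq (f z) * z.im ^ 2 : ℝ) : ℂ) := by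
  rw [petersson, ← Complex.normSq_eq_conj_mul_self]
  simp

theorem pinner_self_eq (f : CuspForm (CongruenceSubgroup.Gamma0 N) 2) :
    pinner f f = ((∫ z, Complex.normSq (f z) * z.im ^ 2 ∂(weightMeasure N) : ℝ) : ℂ) := by
  rw [pinner, ← integral_complex_ofReal]
  exact integral_congr_ae (Filter.Eventually.of_forall fun z => petersson_self f z)

theorem pinner_self_re_nonneg (f : CuspForm (CongruenceSubgroup.Gamma0 N) 2) :
    0 ≤ (pinner f f).re := by
  rw [pinner_self_eq, Complex.ofReal_re]
  exact integral_nonneg fun z => mul_nonneg (Complex.normSq_nonneg _) (sq_nonneg _)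

/-- The Petersson pairing is definite. -/
theorem eq_zero_of_pinner_self_eq_zero {f : CuspForm (CongruenceSubgroup.Gamma0 N) 2}
    (h : pinner f f = 0) : f = 0 := by
  rw [pinner_self_eq, Complex.ofReal_eq_zero] at h
  have hint : Integrable (fun z => Complex.normSq (f z) * z.im ^ 2) (weightMeasure N) := by
    refine (integrable_petersson f f).re.congr (Filter.Eventually.of_forall fun z => ?_)
    show RCLike.re (petersson 2 f f z) = _
    rw [petersson_self]
    exact Complex.ofReal_re _
  have h0 := (integral_eq_zero_iff_of_nonneg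
    (fun z => mul_nonneg (Complex.normSq_nonneg _) (sq_nonneg _)) hint).mp h
  obtain ⟨U, hU, hUne, hpos⟩ := exists_isOpen_subgroupWeight (CongruenceSubgroup.Gamma0 N)
  let V := U ∩ {z | f z ≠ 0}
  have hVopen : IsOpen V :=
    hU.inter (isOpen_ne.preimage (CuspFormClass.holo f).continuous)
  have hV : volume V = 0 := by
    have h1 : weightMeasure N {z | f z ≠ 0} = 0 := by
      rw [Filter.EventuallyEq, ae_iff] at h0
      refine measure_mono_null (fun z hz => ?_) h0
      simp only [Set.mem_ofPred_eq, Pi.zero_apply, mul_eq_zero, Complex.normSq_eq_zero, not_or]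
      exact ⟨hz, pow_ne_zero _ z.im_ne_zero⟩
    rw [weightMeasure, withDensity_apply_eq_zero (f := weight N)
      (isWeight_subgroupWeight _).measurable] at h1
    refine measure_mono_null ?_ h1
    exact fun z hz => ⟨hpos z hz.1, hz.2⟩
  have hempty := eq_empty_of_isOpen_of_volume_eq_zero hVopen hV
  obtain ⟨z₀, hz₀⟩ := hUne
  have hmd : AnalyticOnNhd ℂ ((f : ℍ → ℂ) ∘ ofComplex) {z : ℂ | 0 < z.im} :=
    (UpperHalfPlane.mdifferentiable_iff.mp (CuspFormClass.holo f)).analyticOnNhd
      UpperHalfPlane.isOpen_upperHalfPlaneSet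
  have hconn : IsPreconnected {z : ℂ | 0 < z.im} :=
    ((convex_Ioi 0).linear_preimage Complex.imLm).isPreconnected
  have hz0 : ((f : ℍ → ℂ) ∘ ofComplex) =ᶠ[nhds (z₀ : ℂ)] 0 := by
    filter_upwards [(UpperHalfPlane.isOpenEmbedding_coe.isOpenMap U hU).mem_nhds
      (Set.mem_image_of_mem _ hz₀)] with w hw
    obtain ⟨u, hu, rfl⟩ := hw
    rw [Function.comp_apply, ofComplex_apply, Pi.zero_apply]
    by_contra hne
    exact (hempty ▸ (⟨hu, hne⟩ : u ∈ V) : u ∈ (∅ : Set ℍ))
  have hall := hmd.eqOn_zero_of_preconnected_of_eventuallyEq_zero hconn z₀.im_pos hz0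
  ext z
  simpa [ofComplex_apply] using hall (x := (z : ℂ)) z.im_pos

end FLTA.Petersson
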