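import Mathlib.MeasureTheory.Group.Action
import Mathlib.MeasureTheory.Measure.WithDensity
import Mathlib.MeasureTheory.Integral.Bochner.Basic
import Mathlib.MeasureTheory.Integral.Bochner.Set
import Mathlib.GroupTheory.Coset.Basic

/-!
# Weight functions for countable group actions

A weight for `Γ` is a function `h ≥ 0` whose translates under `Γ` sum to one almost everywhere.
Integrals of invariant functions against a weight do not depend on the weight, which replaces the
use of fundamental domains.
-/

set_option autoImplicit false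

noncomputable section

open MeasureTheory
open scoped ENNReal

namespace FLTA.Petersson

variable {G α : Type*} [Group G] [MeasurableSpace α] [MulAction G α]

/-- `h` is a weight for the action of `Γ`. -/
structure IsWeight (μ : Measure α) (Γ : Subgroup G) (h : α → ℝ≥0∞) : Prop where
  measurable : Measurable h
  tsum_smul : ∀ᵐ x ∂μ, ∑' γ : Γ, h ((γ : G) • x) = 1

variable [MeasurableConstSMul G α] {μ : Measure α} [SMulInvariantMeasure G α μ]

theorem lintegral_smul_eq {f : α → ℝ≥0∞} (hf : Measurable f) (g : G) :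
    ∫⁻ x, f (g • x) ∂μ = ∫⁻ x, f x ∂μ :=
  (measurePreserving_smul g μ).lintegral_comp hf

theorem ae_smul_iff {p : α → Prop} (g : G) (hp : ∀ᵐ x ∂μ, p x) : ∀ᵐ x ∂μ, p (g • x) :=
  (measurePreserving_smul g μ).quasiMeasurePreserving.ae hp

theorem map_smul_withDensity {h : α → ℝ≥0∞} (hh : Measurable h) (g : G) :
    (μ.withDensity h).map (g • ·) = μ.withDensity fun x => h (g⁻¹ • x) := by
  ext s hs
  rw [Measure.map_apply (measurable_const_smul g) hs,
    withDensity_apply _ (measurable_const_smul g hs), withDensity_apply _ hs,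
    ← lintegral_indicator (measurable_const_smul g hs), ← lintegral_indicator hs,
    ← lintegral_smul_eq (μ := μ) (f := s.indicator fun x => h (g⁻¹ • x))
      ((hh.comp (measurable_const_smul g⁻¹)).indicator hs) g]
  congr 1
  funext x
  by_cases hx : g • x ∈ s
  · rw [Set.indicator_of_mem hx, Set.indicator_of_mem (Set.mem_preimage.mpr hx), inv_smul_smul]
  · rw [Set.indicator_of_notMem hx, Set.indicator_of_notMem (mt Set.mem_preimage.mp hx)]

theorem integral_comp_smul {h : α → ℝ≥0∞} (hh : Measurable h) (g : G) {F : α → ℂ}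
    (hF : Measurable F) :
    ∫ x, F (g • x) ∂(μ.withDensity h) = ∫ x, F x ∂(μ.withDensity fun x => h (g⁻¹ • x)) := by
  rw [← map_smul_withDensity hh g,
    integral_map (measurable_const_smul g).aemeasurable hF.aestronglyMeasurable]

namespace IsWeight

variable {Γ : Subgroup G} {h h' : α → ℝ≥0∞}

/-- The integrals of an invariant set against two weights agree. -/
theorem setLIntegral_eq [Countable Γ] (H : IsWeight μ Γ h) (H' : IsWeight μ Γ h') {B : Set α}
    (hB : MeasurableSet B) (hinv : ∀ γ ∈ Γ, ∀ x, γ • x ∈ B ↔ x ∈ B) :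
    ∫⁻ x in B, h x ∂μ = ∫⁻ x in B, h' x ∂μ := by
  rw [← lintegral_indicator hB, ← lintegral_indicator hB]
  have hf : ∀ (γ : G) (u : α → ℝ≥0∞), Measurable u → Measurable fun x => u (γ • x) :=
    fun γ u hu => hu.comp (measurable_const_smul γ)
  calc ∫⁻ x, B.indicator h x ∂μ
      = ∫⁻ x, ∑' γ : Γ, B.indicator h x * h' ((γ : G) • x) ∂μ := by
        refine lintegral_congr_ae ?_
        filter_upwards [H'.tsum_smul] with x hx
        rw [ENNReal.tsum_mul_left, hx, mul_one]
    _ = ∑' γ : Γ, ∫⁻ x, B.indicator h x * h' ((γ : G) • x) ∂μ :=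
        lintegral_tsum fun γ =>
          ((H.measurable.indicator hB).mul (hf _ _ H'.measurable)).aemeasurable
    _ = ∑' γ : Γ, ∫⁻ x, B.indicator h' x * h (((γ⁻¹ : Γ) : G) • x) ∂μ := by
        congr 1
        funext γ
        rw [← lintegral_smul_eq
          (f := fun x => B.indicator h x * h' ((γ : G) • x))
          ((H.measurable.indicator hB).mul (hf _ _ H'.measurable)) ((γ⁻¹ : Γ) : G)]
        congr 1
        funext x
        have hx := hinv ((γ⁻¹ : Γ) : G) (γ⁻¹).2 x
        simp only [Subgroup.coe_inv] at hx ⊢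
        rw [smul_inv_smul]
        by_cases hxB : x ∈ B
        · rw [Set.indicator_of_mem (hx.mpr hxB), Set.indicator_of_mem hxB, mul_comm]
        · rw [Set.indicator_of_notMem (mt hx.mp hxB), Set.indicator_of_notMem hxB, zero_mul,
            zero_mul]
    _ = ∑' γ : Γ, ∫⁻ x, B.indicator h' x * h ((γ : G) • x) ∂μ :=
        (Equiv.inv Γ).tsum_eq fun γ : Γ => ∫⁻ x, B.indicator h' x * h ((γ : G) • x) ∂μ
    _ = ∫⁻ x, ∑' γ : Γ, B.indicator h' x * h ((γ : G) • x) ∂μ :=
        (lintegral_tsum fun γ =>
          ((H'.measurable.indicator hB).mul (hf _ _ H.measurable)).aemeasurable).symm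
    _ = ∫⁻ x, B.indicator h' x ∂μ := by
        refine lintegral_congr_ae ?_
        filter_upwards [H.tsum_smul] with x hx
        rw [ENNReal.tsum_mul_left, hx, mul_one]

theorem lintegral_eq [Countable Γ] (H : IsWeight μ Γ h) (H' : IsWeight μ Γ h') :
    ∫⁻ x, h x ∂μ = ∫⁻ x, h' x ∂μ := by
  simpa using H.setLIntegral_eq H' MeasurableSet.univ fun _ _ _ => Iff.rfl

/-- Integrals of invariant functions do not depend on the weight. -/
theorem integral_eq [Countable Γ] (H : IsWeight μ Γ h) (H' : IsWeight μ Γ h') {F : α → ℂ}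
    (hF : Measurable F) (hinv : ∀ γ ∈ Γ, ∀ x, F (γ • x) = F x) :
    ∫ x, F x ∂(μ.withDensity h) = ∫ x, F x ∂(μ.withDensity h') := by
  refine (integral_map (μ := μ.withDensity h) (f := fun z : ℂ => z) hF.aemeasurable
    aestronglyMeasurable_id).symm.trans (Eq.trans ?_
      (integral_map (μ := μ.withDensity h') (f := fun z : ℂ => z) hF.aemeasurable
        aestronglyMeasurable_id))
  congr 1
  ext B hB
  rw [Measure.map_apply hF hB, Measure.map_apply hF hB, withDensity_apply _ (hF hB),
    withDensity_apply _ (hF hB)]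
  exact H.setLIntegral_eq H' (hF hB) fun γ hγ x => by simp [hinv γ hγ x]

/-- Translating a weight by an element normalising `Γ`. -/
theorem comp_smul (H : IsWeight μ Γ h) (g : G) (hg : ∀ γ : G, g * γ * g⁻¹ ∈ Γ ↔ γ ∈ Γ) :
    IsWeight μ Γ fun x => h (g • x) := by
  refine ⟨H.measurable.comp (measurable_const_smul g), ?_⟩
  filter_upwards [ae_smul_iff g H.tsum_smul] with x hx
  let e : Γ ≃ Γ :=
    { toFun := fun γ => ⟨g * γ * g⁻¹, (hg _).mpr γ.2⟩
      invFun := fun γ => ⟨g⁻¹ * γ * g, (hg _).mp (by simp [mul_assoc])⟩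
      left_inv := fun γ => Subtype.ext (by simp [mul_assoc])
      right_inv := fun γ => Subtype.ext (by simp [mul_assoc]) }
  rw [← hx, ← e.tsum_eq fun γ : Γ => h ((γ : G) • g • x)]
  refine tsum_congr fun γ => ?_
  simp [e, ← mul_smul, mul_assoc]

omit [SMulInvariantMeasure G α μ] in
/-- Passing to a subgroup with given coset representatives. -/
theorem descend {Γ' : Subgroup G} {ι : Type*} [Fintype ι] (H : IsWeight μ Γ h) (r : ι → G)
    (e : ι × Γ' ≃ Γ) (he : ∀ i γ, (e (i, γ) : G) = r i * γ) :
    IsWeight μ Γ' fun x => ∑ i, h (r i • x) := by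
  refine ⟨Finset.measurable_sum _ fun i _ => H.measurable.comp (measurable_const_smul (r i)), ?_⟩
  filter_upwards [H.tsum_smul] with x hx
  rw [Summable.tsum_finsetSum fun i _ => ENNReal.summable, ← hx,
    ← e.tsum_eq fun γ : Γ => h ((γ : G) • x), ENNReal.tsum_prod', tsum_fintype]
  refine Finset.sum_congr rfl fun i _ => tsum_congr fun γ => ?_
  rw [he, mul_smul]

/-- The integral of a finite sum of translates of a bounded function. -/
theorem integral_sum_comp_smul {ι : Type*} [Fintype ι] (hh : Measurable h)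
    (hfin : ∫⁻ x, h x ∂μ ≠ ∞) (r : ι → G) {F : α → ℂ} (hF : Measurable F) {C : ℝ}
    (hC : ∀ x, ‖F x‖ ≤ C) :
    ∫ x, ∑ i, F ((r i)⁻¹ • x) ∂(μ.withDensity h) =
      ∫ x, F x ∂(μ.withDensity fun x => ∑ i, h (r i • x)) := by
  have : IsFiniteMeasure (μ.withDensity h) := isFiniteMeasure_withDensity hfin
  have hm : ∀ i, Measurable fun x => h (r i • x) := fun i => hh.comp (measurable_const_smul _)
  have hfin' : ∀ i, IsFiniteMeasure (μ.withDensity fun x => h (r i • x)) := fun i =>
    isFiniteMeasure_withDensity (by rwa [lintegral_smul_eq hh])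
  have hsum : (μ.withDensity fun x => ∑ i, h (r i • x)) =
      ∑ i, μ.withDensity fun x => h (r i • x) := by
    ext s hs
    rw [withDensity_apply _ hs, lintegral_finsetSum _ fun i _ => hm i]
    simp [Measure.finsetSum_apply, withDensity_apply _ hs]
  rw [hsum, integral_finsetSum_measure fun i _ =>
      Integrable.of_bound hF.aestronglyMeasurable C (Filter.Eventually.of_forall hC),
    integral_finsetSum _ fun i _ => Integrable.of_bound
      (f := fun x => F ((r i)⁻¹ • x))
      (hF.comp (measurable_const_smul _)).aestronglyMeasurable C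
      (Filter.Eventually.of_forall fun x => hC _)]
  refine Finset.sum_congr rfl fun i _ => ?_
  rw [integral_comp_smul hh (r i)⁻¹ hF, inv_inv]

end IsWeight

end FLTA.Petersson
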